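import Fermat.Agent.S48.Top.Spec

/-!
# S48 (Deligne–Serre) — glue piece BND (helper108)

`boundedImage : Top.BoundedImagePiece`:
MAT + VAL + `ChebDensityStatement` + `FiniteImageStatement` ⟹ `BoundedImageStatement`.

Small shared lemmas (own namespace):
* `lowerDensity_le_upperDensity` : `HasLowerDensity X d`, `X ⊆ X'`, `HasUpperDensity X' e` ⟹ `d ≤ e`;
* `finite_range_of_factors`      : `GaloisFactorsThroughFiniteLevel r` ⟹ `Finite r.range`.
-/

set_option autoImplicit false

open CongruenceSubgroup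
open scoped MatrixGroups
open Matrix

namespace Fermat.Agent.S48.H108

open Fermat.Agent.Lib.Cheb.Spec Fermat.Agent.Lib.Cheb.SpecQ Fermat.Agent.S48.Top

/-- A lower density of a subset is at most an upper density of a superset. -/
theorem lowerDensity_le_upperDensity {X X' : Set ℕ} {d e : ℝ} (hXX' : X ⊆ X')
    (hl : HasLowerDensity X d) (hu : HasUpperDensity X' e) : d ≤ e := by
  by_contra hlt
  rw [not_le] at hlt
  have hεpos : 0 < (d - e) / 4 := by linarith
  obtain ⟨δ₁, hδ₁, h₁⟩ := hl ((d - e) / 4) hεpos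
  obtain ⟨δ₂, hδ₂, h₂⟩ := hu ((d - e) / 4) hεpos
  have hδpos : 0 < min (min δ₁ δ₂) (1 / 2) := lt_min (lt_min hδ₁ hδ₂) (by norm_num)
  have hle₁ : min (min δ₁ δ₂) (1 / 2) ≤ δ₁ := (min_le_left _ _).trans (min_le_left _ _)
  have hle₂ : min (min δ₁ δ₂) (1 / 2) ≤ δ₂ := (min_le_left _ _).trans (min_le_right _ _)
  have hle₃ : min (min δ₁ δ₂) (1 / 2) ≤ 1 / 2 := min_le_right _ _
  set δ := min (min δ₁ δ₂) (1 / 2) with hδ
  have hs1 : (1 : ℝ) < 1 + δ / 2 := by linarith
  obtain ⟨T, hT, hsum⟩ := h₁ (1 + δ / 2) hs1 (by linarith)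
  have hsum' := h₂ (1 + δ / 2) hs1 (by linarith) T (fun p hp => hXX' (hT p hp))
  have hL : 0 < Real.log (1 / (1 + δ / 2 - 1)) := by
    apply Real.log_pos
    rw [lt_div_iff₀ (by linarith)]
    linarith
  have := hsum.trans hsum'
  nlinarith

/-- A lower density which is positive forces the set to be non-empty. -/
theorem nonempty_of_lowerDensity_pos {X : Set ℕ} {d : ℝ} (hd : 0 < d)
    (hl : HasLowerDensity X d) : X.Nonempty := by
  by_contra hne
  rw [Set.not_nonempty_iff_eq_empty] at hne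
  have hu : HasUpperDensity X 0 := by
    intro ε hε
    refine ⟨1 / 2, by norm_num, ?_⟩
    intro s hs1 hs2 T hT
    have hTe : T = ∅ := by
      apply Finset.eq_empty_of_forall_notMem
      intro p hp
      have := hT p hp
      rw [hne] at this
      exact this
    subst hTe
    have hL : 0 < Real.log (1 / (s - 1)) := by
      apply Real.log_pos
      rw [lt_div_iff₀ (by linarith)]
      linarith
    simp only [Finset.sum_empty, zero_add]
    positivity
  have := lowerDensity_le_upperDensity (le_refl X) hl hu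
  linarith

/-- `ℚ̄ / ℚ` is Galois (for the `Algebra` instance used by the Prelude). -/
theorem isGalois_Qb : IsGalois ℚ (AlgebraicClosure ℚ) := by
  have h1 : Algebra.IsAlgebraic ℚ (AlgebraicClosure ℚ) := AlgebraicClosure.isAlgebraic ℚ
  have h2 : IsAlgClosure ℚ (AlgebraicClosure ℚ) := ⟨inferInstance, h1⟩
  have h3 : Normal ℚ (AlgebraicClosure ℚ) := IsAlgClosure.normal ℚ (AlgebraicClosure ℚ)
  exact isGalois_iff.mpr ⟨inferInstance, h3⟩

/-- A homomorphism on `Gal(ℚ̄/ℚ)` which factors through a finite level has finite range. -/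
theorem finite_range_of_factors {M : Type} [Group M] (r : GQ →* M)
    (h : GaloisFactorsThroughFiniteLevel r) : Finite r.range := by
  obtain ⟨L, hL, hker⟩ := h
  have hle : L.fixingSubgroup ≤ r.ker := by
    intro σ hσ
    rw [MonoidHom.mem_ker]
    apply hker
    intro x hx
    exact (IntermediateField.mem_fixingSubgroup_iff L σ).1 hσ x hx
  have hGal : IsGalois ℚ (AlgebraicClosure ℚ) := isGalois_Qb
  have hidx : L.fixingSubgroup.index ≠ 0 := by
    rw [← IntermediateField.finrank_eq_fixingSubgroup_index]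
    exact Module.finrank_pos.ne'
  have hidx' : r.ker.index ≠ 0 := fun h0 =>
    hidx (Nat.eq_zero_of_zero_dvd (h0 ▸ Subgroup.index_dvd_of_le hle))
  rw [Subgroup.index_ker] at hidx'
  exact Nat.finite_of_card_ne_zero hidx'

/-! ## The finite set of candidate `(trace, det)` pairs -/

section Pairs

variable {k : Type} [Field k]

/-- Extension by zero of `φ : ℤ̄ → k` to `ℂ`. -/
noncomputable def extZero (φ : Zbar →+* k) (y : ℂ) : k :=
  open Classical in if h : y ∈ integralClosure ℤ ℂ then φ ⟨y, h⟩ else 0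

theorem extZero_coe (φ : Zbar →+* k) (a : Zbar) : extZero φ (a : ℂ) = φ a := by
  unfold extZero
  rw [dif_pos a.2]

/-- The candidate pairs `(φ y, φ (ε u))`, `y ∈ Y`, `u ∈ ℤ/N`. -/
noncomputable def pairSet {N : ℕ} [NeZero N] (ε : DirichletCharacter ℂ N) (Y : Finset ℂ)
    (φ : Zbar →+* k) : Finset (k × k) :=
  open Classical in
  (Y ×ˢ (Finset.univ : Finset (ZMod N))).image
    (fun x : ℂ × ZMod N => (extZero φ x.1, extZero φ (ε x.2)))

theorem card_pairSet_le {N : ℕ} [NeZero N] (ε : DirichletCharacter ℂ N) (Y : Finset ℂ)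
    (φ : Zbar →+* k) : (pairSet ε Y φ).card ≤ Y.card * N := by
  classical
  unfold pairSet
  refine Finset.card_image_le.trans ?_
  rw [Finset.card_product, Finset.card_univ, ZMod.card]

theorem mem_pairSet {N : ℕ} [NeZero N] (ε : DirichletCharacter ℂ N) (Y : Finset ℂ)
    (φ : Zbar →+* k) {a e : Zbar} {u : ZMod N} (ha : (a : ℂ) ∈ Y) (he : (e : ℂ) = ε u) :
    (φ a, φ e) ∈ pairSet ε Y φ := by
  classical
  unfold pairSet
  rw [Finset.mem_image]
  refine ⟨((a : ℂ), u), ?_, ?_⟩
  · exact Finset.mem_product.2 ⟨ha, Finset.mem_univ _⟩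
  · simp only
    rw [← he, extZero_coe, extZero_coe]

end Pairs

/-! ## BND -/

/-- **BND**: MAT + VAL + Chebotarev density + FI ⟹ the mod-`ℓ` images have bounded order. -/
theorem boundedImage : BoundedImagePiece := by
  intro hMAT hVAL hCheb hFI N _ ε f hf
  classical
  obtain ⟨Y, hY⟩ := hVAL N ε f hf (1 / 8) (by norm_num)
  obtain ⟨A₀, hA₀⟩ := hFI (1 / 4) (Y.card * N) (by norm_num)
  obtain ⟨B₀, hB₀⟩ := hMAT N ε f hf
  refine ⟨A₀, max A₀ B₀, ?_⟩
  intro ℓ hℓ hBℓ k _ _ φ
  obtain ⟨r, hr_fin, hr_ss, hr_att⟩ :=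
    hB₀ ℓ hℓ (lt_of_le_of_lt (le_max_right _ _) hBℓ) k φ
  have hfin : Finite r.range := finite_range_of_factors r hr_fin
  refine ⟨r, hr_fin, hr_att, hfin, ?_⟩
  apply hA₀ ℓ hℓ (lt_of_le_of_lt (le_max_left _ _) hBℓ) k r.range hfin hr_ss
  -- the condition `C(1/4, M)`
  set P : Finset (k × k) := pairSet ε Y φ with hP
  set C : Set (GL (Fin 2) k) := {g | trDet g ∉ P} with hC
  have hNℓ : N * ℓ ≠ 0 := Nat.mul_ne_zero (NeZero.ne N) hℓ.ne_zero
  obtain ⟨E, hE, hEker⟩ := hr_fin
  have hdens := hCheb (GL (Fin 2) k) r E hE hEker C (N * ℓ).primeFactors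
  -- the Frobenius primes of `C` are exceptional
  have hsub : frobPrimesHom r C (N * ℓ).primeFactors ⊆
      {p : ℕ | p.Prime ∧ ¬ p ∣ N ∧ ModularFormClass.qCoeff f p ∉ Y} := by
    rintro p ⟨hp, hpS, A, τ, hA, hτ, -, hτC⟩
    have hpNℓ : ¬ p ∣ N * ℓ := fun hdvd => hpS (Nat.mem_primeFactors.2 ⟨hp, hdvd, hNℓ⟩)
    refine ⟨hp, fun hdvd => hpNℓ (Dvd.dvd.mul_right hdvd ℓ), fun hmem => ?_⟩
    obtain ⟨a, e, ha, he, htr, hdet⟩ := (hr_att p hp hpNℓ A hA).2 τ hτ
    apply hτC
    have : trDet (r τ) = (φ a, φ e) := by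
      unfold trDet
      rw [htr, hdet]
    rw [this]
    exact mem_pairSet ε Y φ (by rw [ha]; exact hmem) he
  have hratio := lowerDensity_le_upperDensity hsub hdens hY
  -- counting
  have hrange : (Set.range r) = (r.range : Set (GL (Fin 2) k)) := (MonoidHom.coe_range r).symm
  have hfinS : (r.range : Set (GL (Fin 2) k)).Finite := Set.toFinite _
  have hcard_pos : 0 < (r.range : Set (GL (Fin 2) k)).ncard :=
    (Set.ncard_pos hfinS).2 ⟨1, r.range.one_mem⟩
  rw [hrange, Nat.card_coe_set_eq, Nat.card_coe_set_eq] at hratio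
  refine ⟨(r.range : Set (GL (Fin 2) k)) \ C, Set.sdiff_subset, ?_, P, card_pairSet_le ε Y φ, ?_⟩
  · have hsplit := Set.ncard_inter_add_ncard_sdiff_eq_ncard (r.range : Set (GL (Fin 2) k)) C hfinS
    rw [Set.inter_comm] at hsplit
    have hG : (Nat.card r.range : ℝ) = ((r.range : Set (GL (Fin 2) k)).ncard : ℝ) := by
      rw [← Nat.card_coe_set_eq]
      rfl
    rw [Nat.card_coe_set_eq, hG]
    have hsplit' : ((C ∩ (r.range : Set (GL (Fin 2) k))).ncard : ℝ) +
        (((r.range : Set (GL (Fin 2) k)) \ C).ncard : ℝ) =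
        ((r.range : Set (GL (Fin 2) k)).ncard : ℝ) := by
      exact_mod_cast hsplit
    have hpos : (0 : ℝ) < ((r.range : Set (GL (Fin 2) k)).ncard : ℝ) := by exact_mod_cast hcard_pos
    rw [div_le_iff₀ hpos] at hratio
    linarith
  · rintro h ⟨-, hhC⟩
    by_contra hne
    exact hhC hne

end Fermat.Agent.S48.H108
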