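import Fermat.Agent.S48.Top.Spec

/-!
# S48 (Deligne–Serre) — glue piece MAT (helper108)

`residualMat : Top.ResidualMatPiece`: `ResidualStatement ⟹ ResidualMatStatement`.

* choose a basis of the `2`-dimensional space `V` of the `ResidualGaloisRep`: `matRep`;
* `charpoly = X² - t X + d` gives trace `t` and determinant `d`;
* semisimplification: if some stable line has no stable complement, replace the representation
  by `diag(χ₁, det / χ₁)` where `χ₁` is the character of the stable line (`diagRep`).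
-/

set_option autoImplicit false

open CongruenceSubgroup
open scoped MatrixGroups
open Matrix

namespace Fermat.Agent.S48.H108

open Fermat.Agent.Lib.Cheb.Spec Fermat.Agent.Lib.Cheb.SpecQ Fermat.Agent.S48.Top

/-! ## Matrix form of a `ResidualGaloisRep` -/

section MatRep

variable {k : Type} [Field k]

/-- A basis of the underlying space of a residual representation. -/
noncomputable def resBasis (ρ : ResidualGaloisRep k) : Module.Basis (Fin 2) k ρ.V :=
  Module.finBasisOfFinrankEq k ρ.V ρ.finrank_eq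

/-- The matrix form of a residual representation (with respect to `resBasis`). -/
noncomputable def matRep (ρ : ResidualGaloisRep k) : GQ →* GL (Fin 2) k :=
  (((LinearMap.toMatrixAlgEquiv (resBasis ρ)).toAlgHom.toRingHom.toMonoidHom).comp
    ρ.ρ).toHomUnits

theorem matRep_coe (ρ : ResidualGaloisRep k) (σ : GQ) :
    ((matRep ρ σ : GL (Fin 2) k) : Matrix (Fin 2) (Fin 2) k) =
      LinearMap.toMatrix (resBasis ρ) (resBasis ρ) (ρ.ρ σ) := rfl

theorem matRep_eq_one (ρ : ResidualGaloisRep k) {σ : GQ} (h : ρ.ρ σ = 1) : matRep ρ σ = 1 := by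
  apply Units.ext
  rw [matRep_coe, h]
  exact LinearMap.toMatrix_one (resBasis ρ)

theorem matRep_charpoly (ρ : ResidualGaloisRep k) (σ : GQ) :
    ((matRep ρ σ : GL (Fin 2) k) : Matrix (Fin 2) (Fin 2) k).charpoly =
      LinearMap.charpoly (ρ.ρ σ) := by
  rw [matRep_coe]
  exact LinearMap.charpoly_toMatrix (ρ.ρ σ) (resBasis ρ)

/-- Trace and determinant from the characteristic polynomial. -/
theorem trace_det_of_charpoly (M : Matrix (Fin 2) (Fin 2) k) (t d : k)
    (h : M.charpoly = Polynomial.X ^ 2 - Polynomial.C t * Polynomial.X + Polynomial.C d) :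
    M.trace = t ∧ M.det = d := by
  rw [Matrix.charpoly_fin_two] at h
  have h1 := congrArg (fun q : Polynomial k => q.coeff 1) h
  have h0 := congrArg (fun q : Polynomial k => q.coeff 0) h
  simp only [Polynomial.coeff_add, Polynomial.coeff_sub, Polynomial.coeff_X_pow,
    Polynomial.coeff_C_mul, Polynomial.coeff_X_one, Polynomial.coeff_X_zero,
    Polynomial.coeff_C] at h1 h0
  constructor
  · simpa using h1
  · simpa using h0

end MatRep

/-! ## Semisimplification -/

section Diag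

variable {F : Type*} [Field F]

/-- An eigenvalue of a `2 × 2` matrix is a root of `X² - tr X + det`. -/
theorem eigen_quadratic (M : Matrix (Fin 2) (Fin 2) F) {v : Fin 2 → F} (hv : v ≠ 0) {c : F}
    (h : M *ᵥ v = c • v) : c * c - M.trace * c + M.det = 0 := by
  have h0 : (M - c • (1 : Matrix (Fin 2) (Fin 2) F)) *ᵥ v = 0 := by
    rw [Matrix.sub_mulVec, h, Matrix.smul_mulVec, Matrix.one_mulVec, sub_self]
  have hdet : (M - c • (1 : Matrix (Fin 2) (Fin 2) F)).det = 0 :=
    Matrix.exists_mulVec_eq_zero_iff.1 ⟨v, hv, h0⟩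
  rw [Matrix.det_fin_two] at hdet
  rw [Matrix.trace_fin_two, Matrix.det_fin_two]
  simp only [Matrix.sub_apply, Matrix.smul_apply, Matrix.one_apply_eq, smul_eq_mul, mul_one,
    ne_eq, Fin.reduceEq, not_false_eq_true, Matrix.one_apply_ne, mul_zero, sub_zero] at hdet
  linear_combination hdet

/-- The diagonal `2 × 2` matrix. -/
def diag2 (a b : F) : Matrix (Fin 2) (Fin 2) F := !![a, 0; 0, b]

theorem diag2_mul (a b a' b' : F) : diag2 a b * diag2 a' b' = diag2 (a * a') (b * b') := by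
  unfold diag2
  rw [Matrix.mul_fin_two]
  simp

theorem diag2_one : diag2 (1 : F) 1 = 1 := by
  unfold diag2
  exact Matrix.one_fin_two.symm

theorem diag2_trace (a b : F) : (diag2 a b).trace = a + b := by
  unfold diag2
  exact Matrix.trace_fin_two_of a 0 0 b

theorem diag2_det (a b : F) : (diag2 a b).det = a * b := by
  unfold diag2
  rw [Matrix.det_fin_two_of]
  ring

theorem diag2_mulVec (a b : F) (w : Fin 2 → F) : diag2 a b *ᵥ w = ![a * w 0, b * w 1] := by
  unfold diag2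
  ext i
  fin_cases i <;> simp [Matrix.mulVec, dotProduct, Fin.sum_univ_two]

/-- Every group of diagonal matrices is semisimple in the sense of `StableLinesSplit`. -/
theorem stableLinesSplit_of_diag (G : Subgroup (GL (Fin 2) F))
    (hG : ∀ g ∈ G, ∃ a b : F, (g : Matrix (Fin 2) (Fin 2) F) = diag2 a b) :
    StableLinesSplit G := by
  intro v _ _
  by_cases hv1 : v 1 = 0
  · refine ⟨![0, 1], ?_, ?_⟩
    · intro c hc
      have := congrFun hc 1
      simp [hv1] at this
    · intro g hg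
      obtain ⟨a, b, hab⟩ := hG g hg
      refine ⟨b, ?_⟩
      rw [hab, diag2_mulVec]
      ext i
      fin_cases i <;> simp
  · refine ⟨![1, 0], ?_, ?_⟩
    · intro c hc
      have h1 := congrFun hc 1
      have h0 := congrFun hc 0
      simp only [Matrix.cons_val_one, Matrix.cons_val_zero, Pi.smul_apply, smul_eq_mul] at h1 h0
      have hc0 : c = 0 := by
        rcases mul_eq_zero.1 h1.symm with h | h
        · exact h
        · exact absurd h hv1
      rw [hc0, zero_mul] at h0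
      exact one_ne_zero h0
    · intro g hg
      obtain ⟨a, b, hab⟩ := hG g hg
      refine ⟨a, ?_⟩
      rw [hab, diag2_mulVec]
      ext i
      fin_cases i <;> simp

variable {Γ : Type*} [Group Γ]

/-- The character by which `Γ` acts on a stable line `F v`. -/
noncomputable def lineChar (r : Γ →* GL (Fin 2) F) (v : Fin 2 → F)
    (hstab : ∀ σ : Γ, ∃ c : F, ((r σ : GL (Fin 2) F) : Matrix (Fin 2) (Fin 2) F) *ᵥ v = c • v)
    (σ : Γ) : F :=
  Classical.choose (hstab σ)

theorem lineChar_spec (r : Γ →* GL (Fin 2) F) (v : Fin 2 → F)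
    (hstab : ∀ σ : Γ, ∃ c : F, ((r σ : GL (Fin 2) F) : Matrix (Fin 2) (Fin 2) F) *ᵥ v = c • v)
    (σ : Γ) :
    ((r σ : GL (Fin 2) F) : Matrix (Fin 2) (Fin 2) F) *ᵥ v = lineChar r v hstab σ • v :=
  Classical.choose_spec (hstab σ)

theorem lineChar_unique (r : Γ →* GL (Fin 2) F) {v : Fin 2 → F} (hv : v ≠ 0)
    (hstab : ∀ σ : Γ, ∃ c : F, ((r σ : GL (Fin 2) F) : Matrix (Fin 2) (Fin 2) F) *ᵥ v = c • v)
    (σ : Γ) {c : F}
    (h : ((r σ : GL (Fin 2) F) : Matrix (Fin 2) (Fin 2) F) *ᵥ v = c • v) :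
    lineChar r v hstab σ = c := by
  have := (lineChar_spec r v hstab σ).symm.trans h
  exact smul_left_injective F hv this

theorem lineChar_one (r : Γ →* GL (Fin 2) F) {v : Fin 2 → F} (hv : v ≠ 0)
    (hstab : ∀ σ : Γ, ∃ c : F, ((r σ : GL (Fin 2) F) : Matrix (Fin 2) (Fin 2) F) *ᵥ v = c • v)
    {σ : Γ} (h : r σ = 1) : lineChar r v hstab σ = 1 := by
  apply lineChar_unique r hv hstab σ
  rw [h, Units.val_one, Matrix.one_mulVec, one_smul]

theorem lineChar_mul (r : Γ →* GL (Fin 2) F) {v : Fin 2 → F} (hv : v ≠ 0)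
    (hstab : ∀ σ : Γ, ∃ c : F, ((r σ : GL (Fin 2) F) : Matrix (Fin 2) (Fin 2) F) *ᵥ v = c • v)
    (σ τ : Γ) : lineChar r v hstab (σ * τ) = lineChar r v hstab σ * lineChar r v hstab τ := by
  apply lineChar_unique r hv hstab (σ * τ)
  rw [map_mul, Units.val_mul, ← Matrix.mulVec_mulVec, lineChar_spec r v hstab τ,
    Matrix.mulVec_smul, lineChar_spec r v hstab σ, smul_smul, mul_comm]

/-- The semisimplification `diag(χ₁, det / χ₁)` as a monoid homomorphism to matrices. -/
noncomputable def diagHom (r : Γ →* GL (Fin 2) F) {v : Fin 2 → F} (hv : v ≠ 0)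
    (hstab : ∀ σ : Γ, ∃ c : F, ((r σ : GL (Fin 2) F) : Matrix (Fin 2) (Fin 2) F) *ᵥ v = c • v) :
    Γ →* Matrix (Fin 2) (Fin 2) F where
  toFun σ := diag2 (lineChar r v hstab σ)
    (((r σ : GL (Fin 2) F) : Matrix (Fin 2) (Fin 2) F).det * (lineChar r v hstab σ)⁻¹)
  map_one' := by
    rw [lineChar_one r hv hstab (map_one r), map_one, Units.val_one, Matrix.det_one, inv_one,
      mul_one, diag2_one]
  map_mul' σ τ := by
    rw [diag2_mul, lineChar_mul r hv hstab, map_mul, Units.val_mul, Matrix.det_mul, mul_inv]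
    congr 1
    ring

/-- The semisimplification `diag(χ₁, det / χ₁)`. -/
noncomputable def diagRep (r : Γ →* GL (Fin 2) F) {v : Fin 2 → F} (hv : v ≠ 0)
    (hstab : ∀ σ : Γ, ∃ c : F, ((r σ : GL (Fin 2) F) : Matrix (Fin 2) (Fin 2) F) *ᵥ v = c • v) :
    Γ →* GL (Fin 2) F :=
  (diagHom r hv hstab).toHomUnits

theorem diagRep_coe (r : Γ →* GL (Fin 2) F) {v : Fin 2 → F} (hv : v ≠ 0)
    (hstab : ∀ σ : Γ, ∃ c : F, ((r σ : GL (Fin 2) F) : Matrix (Fin 2) (Fin 2) F) *ᵥ v = c • v)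
    (σ : Γ) :
    ((diagRep r hv hstab σ : GL (Fin 2) F) : Matrix (Fin 2) (Fin 2) F) =
      diag2 (lineChar r v hstab σ)
        (((r σ : GL (Fin 2) F) : Matrix (Fin 2) (Fin 2) F).det * (lineChar r v hstab σ)⁻¹) :=
  rfl

theorem lineChar_ne_zero (r : Γ →* GL (Fin 2) F) {v : Fin 2 → F} (hv : v ≠ 0)
    (hstab : ∀ σ : Γ, ∃ c : F, ((r σ : GL (Fin 2) F) : Matrix (Fin 2) (Fin 2) F) *ᵥ v = c • v)
    (σ : Γ) : lineChar r v hstab σ ≠ 0 := by
  intro h0
  have h1 : lineChar r v hstab (σ * σ⁻¹) = 1 :=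
    lineChar_one r hv hstab (by rw [mul_inv_cancel, map_one])
  rw [lineChar_mul r hv hstab, h0, zero_mul] at h1
  exact zero_ne_one h1

theorem diagRep_det (r : Γ →* GL (Fin 2) F) {v : Fin 2 → F} (hv : v ≠ 0)
    (hstab : ∀ σ : Γ, ∃ c : F, ((r σ : GL (Fin 2) F) : Matrix (Fin 2) (Fin 2) F) *ᵥ v = c • v)
    (σ : Γ) :
    ((diagRep r hv hstab σ : GL (Fin 2) F) : Matrix (Fin 2) (Fin 2) F).det =
      ((r σ : GL (Fin 2) F) : Matrix (Fin 2) (Fin 2) F).det := by
  rw [diagRep_coe, diag2_det]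
  field_simp [lineChar_ne_zero r hv hstab σ]

theorem diagRep_trace (r : Γ →* GL (Fin 2) F) {v : Fin 2 → F} (hv : v ≠ 0)
    (hstab : ∀ σ : Γ, ∃ c : F, ((r σ : GL (Fin 2) F) : Matrix (Fin 2) (Fin 2) F) *ᵥ v = c • v)
    (σ : Γ) :
    ((diagRep r hv hstab σ : GL (Fin 2) F) : Matrix (Fin 2) (Fin 2) F).trace =
      ((r σ : GL (Fin 2) F) : Matrix (Fin 2) (Fin 2) F).trace := by
  rw [diagRep_coe, diag2_trace]
  have hq := eigen_quadratic _ hv (lineChar_spec r v hstab σ)
  have hne := lineChar_ne_zero r hv hstab σ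
  field_simp
  linear_combination hq

theorem diagRep_eq_one (r : Γ →* GL (Fin 2) F) {v : Fin 2 → F} (hv : v ≠ 0)
    (hstab : ∀ σ : Γ, ∃ c : F, ((r σ : GL (Fin 2) F) : Matrix (Fin 2) (Fin 2) F) *ᵥ v = c • v)
    {σ : Γ} (h : r σ = 1) : diagRep r hv hstab σ = 1 := by
  apply Units.ext
  rw [diagRep_coe, lineChar_one r hv hstab h, h, Units.val_one, Matrix.det_one, inv_one,
    mul_one, diag2_one]

theorem diagRep_stableLinesSplit (r : Γ →* GL (Fin 2) F) {v : Fin 2 → F} (hv : v ≠ 0)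
    (hstab : ∀ σ : Γ, ∃ c : F, ((r σ : GL (Fin 2) F) : Matrix (Fin 2) (Fin 2) F) *ᵥ v = c • v) :
    StableLinesSplit (diagRep r hv hstab).range := by
  apply stableLinesSplit_of_diag
  rintro g ⟨σ, rfl⟩
  exact ⟨_, _, diagRep_coe r hv hstab σ⟩

/-- **Semisimplification.**  Every `r : Γ → GL₂(F)` can be replaced by a semisimple `r'` with the
same traces and determinants and with `r σ = 1 → r' σ = 1`. -/
theorem exists_semisimplification (r : Γ →* GL (Fin 2) F) :
    ∃ r' : Γ →* GL (Fin 2) F, StableLinesSplit r'.range ∧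
      (∀ σ : Γ, r σ = 1 → r' σ = 1) ∧
      ∀ σ : Γ,
        ((r' σ : GL (Fin 2) F) : Matrix (Fin 2) (Fin 2) F).trace =
          ((r σ : GL (Fin 2) F) : Matrix (Fin 2) (Fin 2) F).trace ∧
        ((r' σ : GL (Fin 2) F) : Matrix (Fin 2) (Fin 2) F).det =
          ((r σ : GL (Fin 2) F) : Matrix (Fin 2) (Fin 2) F).det := by
  by_cases hss : StableLinesSplit r.range
  · exact ⟨r, hss, fun _ h => h, fun _ => ⟨rfl, rfl⟩⟩
  · unfold StableLinesSplit at hss
    rw [not_forall] at hss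
    obtain ⟨v, hv⟩ := hss
    rw [Classical.not_imp] at hv
    obtain ⟨hv0, hv⟩ := hv
    rw [Classical.not_imp] at hv
    obtain ⟨hstab0, -⟩ := hv
    have hstab : ∀ σ : Γ, ∃ c : F,
        ((r σ : GL (Fin 2) F) : Matrix (Fin 2) (Fin 2) F) *ᵥ v = c • v :=
      fun σ => hstab0 (r σ) ⟨σ, rfl⟩
    exact ⟨diagRep r hv0 hstab, diagRep_stableLinesSplit r hv0 hstab,
      fun σ h => diagRep_eq_one r hv0 hstab h,
      fun σ => ⟨diagRep_trace r hv0 hstab σ, diagRep_det r hv0 hstab σ⟩⟩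

end Diag

/-! ## MAT -/

/-- **MAT**: `ResidualStatement ⟹ ResidualMatStatement`. -/
theorem residualMat : ResidualMatPiece := by
  intro hRES N _ ε f hf
  obtain ⟨B, hB⟩ := hRES N ε f hf
  refine ⟨B, ?_⟩
  intro ℓ hℓ hBℓ k _ _ φ
  obtain ⟨ρ, hρ⟩ := hB ℓ hℓ hBℓ k φ
  obtain ⟨r, hss, hone, htd⟩ := exists_semisimplification (matRep ρ)
  refine ⟨r, ?_, hss, ?_⟩
  · obtain ⟨L, hL, hker⟩ := ρ.factorsThroughFiniteLevel
    exact ⟨L, hL, fun σ hσ => hone σ (matRep_eq_one ρ (hker σ hσ))⟩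
  · intro p hp hpNℓ A hA
    obtain ⟨hunr, hfrob⟩ := hρ p hp hpNℓ
    refine ⟨fun σ hσ => hone σ (matRep_eq_one ρ (hunr A hA σ hσ)), ?_⟩
    intro σ hσ
    obtain ⟨a, e, ha, he, hcp⟩ := hfrob A hA σ hσ
    rw [← matRep_charpoly] at hcp
    obtain ⟨ht, hd⟩ := trace_det_of_charpoly _ _ _ hcp
    exact ⟨a, e, ha, he, (htd σ).1.trans ht, (htd σ).2.trans hd⟩

end Fermat.Agent.S48.H108
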